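/-
S41 leaf C11 [NEW]: the Atkin–Lehner facts of `ALMatrix.lean` in `GL (Fin 2) ℝ` / `SL(2,ℤ)` / `Gamma0`
form (helper25), i.e. literally the hypotheses of `Hecke15.isStable_unit`, `New25.res_cores_eq` (`h1`)
and `New25.W_sq` (`hw`) for `e' = (mapGL ℝ).comp (Gamma0 (N*q)).subtype`.

`N q : ℕ`, `x y z t : ℤ` with `q x t - N y z = 1`.
-/
import Mathlib
import Fermat.Prelude.Def_ModularForm_HeckeOperator
import Fermat.Agent.S41.New25.ALMatrix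

set_option autoImplicit false

namespace Fermat.Agent.S41.New25

open Matrix Matrix.SpecialLinearGroup CongruenceSubgroup
open scoped MatrixGroups

/-- the scalar matrix `r • 1` in `GL (Fin 2) ℝ`. -/
noncomputable def scalarGL (r : ℝ) (hr : r ≠ 0) : GL (Fin 2) ℝ :=
  Matrix.GeneralLinearGroup.mkOfDetNeZero (r • (1 : Matrix (Fin 2) (Fin 2) ℝ)) (by
    rw [Matrix.det_smul, Matrix.det_one, mul_one]
    exact pow_ne_zero _ hr)

@[simp] theorem val_scalarGL (r : ℝ) (hr : r ≠ 0) :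
    ((scalarGL r hr : GL (Fin 2) ℝ) : Matrix (Fin 2) (Fin 2) ℝ) = r • 1 := rfl

/-- scalar matrices are central. -/
theorem scalarGL_comm (r : ℝ) (hr : r ≠ 0) (g : GL (Fin 2) ℝ) :
    scalarGL r hr * g = g * scalarGL r hr := by
  apply Units.ext
  rw [Units.val_mul, Units.val_mul, val_scalarGL, smul_mul_assoc, one_mul, mul_smul_comm, mul_one]

/-- the matrix of `mapGL ℝ γ`. -/
theorem val_mapGL (γ : SL(2, ℤ)) :
    ((mapGL ℝ γ : GL (Fin 2) ℝ) : Matrix (Fin 2) (Fin 2) ℝ) =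
      (γ : Matrix (Fin 2) (Fin 2) ℤ).map (algebraMap ℤ ℝ) := by
  rw [mapGL_coe_matrix, map_apply_coe, RingHom.mapMatrix_apply]

theorem map_smul_int (c : ℤ) (M : Matrix (Fin 2) (Fin 2) ℤ) :
    (c • M).map (algebraMap ℤ ℝ) = (c : ℝ) • M.map (algebraMap ℤ ℝ) := by
  ext i j
  rw [Matrix.map_apply, Matrix.smul_apply, Matrix.smul_apply, Matrix.map_apply]
  simp

section AL

variable (N q : ℕ) (x y z t : ℤ)

/-- the Atkin–Lehner element of `GL (Fin 2) ℝ`. -/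
noncomputable def alWGL (hq : q ≠ 0) (h : (q : ℤ) * x * t - N * y * z = 1) : GL (Fin 2) ℝ :=
  Matrix.GeneralLinearGroup.mkOfDetNeZero ((alW N q x y z t).map (algebraMap ℤ ℝ)) (by
    rw [← RingHom.mapMatrix_apply, ← RingHom.map_det, alW_det _ _ _ _ _ _ h]
    simpa using hq)

@[simp] theorem val_alWGL (hq : q ≠ 0) (h : (q : ℤ) * x * t - N * y * z = 1) :
    ((alWGL N q x y z t hq h : GL (Fin 2) ℝ) : Matrix (Fin 2) (Fin 2) ℝ) =
      (alW N q x y z t).map (algebraMap ℤ ℝ) := rfl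

variable {N q x y z t}

/-- an integral intertwining relation `w γ = γ' w` gives the relation in `GL (Fin 2) ℝ`. -/
theorem alWGL_mul_mapGL (hq : q ≠ 0) (h : (q : ℤ) * x * t - N * y * z = 1) (γ γ' : SL(2, ℤ))
    (hγ : alW N q x y z t * (γ : Matrix (Fin 2) (Fin 2) ℤ) =
      (γ' : Matrix (Fin 2) (Fin 2) ℤ) * alW N q x y z t) :
    alWGL N q x y z t hq h * mapGL ℝ γ = mapGL ℝ γ' * alWGL N q x y z t hq h := by
  apply Units.ext
  rw [Units.val_mul, Units.val_mul, val_alWGL, val_mapGL, val_mapGL,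
    ← Matrix.map_mul, ← Matrix.map_mul, hγ]

/-- **`w` normalises `Γ0(N q)`**, in the shape of `Hecke15.isStable_unit`. -/
theorem exists_alConj_mem_Gamma0 (hq : q ≠ 0) (h : (q : ℤ) * x * t - N * y * z = 1)
    (γ : SL(2, ℤ)) (hγ : γ ∈ Gamma0 (N * q)) :
    ∃ γ' : SL(2, ℤ), γ' ∈ Gamma0 (N * q) ∧
      alWGL N q x y z t hq h * mapGL ℝ γ = mapGL ℝ γ' * alWGL N q x y z t hq h := by
  rw [Gamma0_mem] at hγ
  obtain ⟨c, hc⟩ := (ZMod.intCast_zmod_eq_zero_iff_dvd _ _).mp hγ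
  have hc' : (γ : Matrix (Fin 2) (Fin 2) ℤ) 1 0 = (N : ℤ) * q * c := by
    rw [hc]; push_cast; ring
  have hdet : (γ : Matrix (Fin 2) (Fin 2) ℤ) 0 0 * (γ : Matrix (Fin 2) (Fin 2) ℤ) 1 1 -
      (γ : Matrix (Fin 2) (Fin 2) ℤ) 0 1 * ((N : ℤ) * q * c) = 1 := by
    have := γ.det_coe
    rw [Matrix.det_fin_two, hc'] at this
    exact this
  have hγeq : (γ : Matrix (Fin 2) (Fin 2) ℤ) =
      !![(γ : Matrix (Fin 2) (Fin 2) ℤ) 0 0, (γ : Matrix (Fin 2) (Fin 2) ℤ) 0 1;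
         (N : ℤ) * q * c, (γ : Matrix (Fin 2) (Fin 2) ℤ) 1 1] := by
    rw [← hc']
    exact Matrix.eta_fin_two _
  have hdet' : (alConj N q x y z t ((γ : Matrix (Fin 2) (Fin 2) ℤ) 0 0)
      ((γ : Matrix (Fin 2) (Fin 2) ℤ) 0 1) c ((γ : Matrix (Fin 2) (Fin 2) ℤ) 1 1)).det = 1 := by
    rw [alConj_det _ _ _ _ _ _ _ _ _ _ h]
    exact hdet
  refine ⟨(⟨alConj N q x y z t ((γ : Matrix (Fin 2) (Fin 2) ℤ) 0 0)
      ((γ : Matrix (Fin 2) (Fin 2) ℤ) 0 1) c ((γ : Matrix (Fin 2) (Fin 2) ℤ) 1 1), hdet'⟩ :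
      SL(2, ℤ)), Gamma0_mem.mpr ?_, ?_⟩
  · show (((alConj N q x y z t _ _ c _) 1 0 : ℤ) : ZMod (N * q)) = 0
    rw [alConj_one_zero, (ZMod.intCast_zmod_eq_zero_iff_dvd _ _)]
    refine ⟨z * (γ : Matrix (Fin 2) (Fin 2) ℤ) 0 0 * t + t ^ 2 * q * c -
      N * z ^ 2 * (γ : Matrix (Fin 2) (Fin 2) ℤ) 0 1 - z * t * (γ : Matrix (Fin 2) (Fin 2) ℤ) 1 1, ?_⟩
    push_cast
    ring
  · apply alWGL_mul_mapGL hq h
    show alW N q x y z t * (γ : Matrix (Fin 2) (Fin 2) ℤ) = alConj N q x y z t _ _ c _ * _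
    conv_lhs => rw [hγeq]
    exact alW_mul_eq _ _ _ _ _ _ _ _ _ _ h

/-- `γ₀ = w² / q` as an element of `SL(2,ℤ)`. -/
def alSqSL (N q : ℕ) (x y z t : ℤ) (h : (q : ℤ) * x * t - N * y * z = 1) : SL(2, ℤ) :=
  ⟨alSq N q x y z t, alSq_det _ _ _ _ _ _ h⟩

theorem alSqSL_mem_Gamma0 (h : (q : ℤ) * x * t - N * y * z = 1) :
    alSqSL N q x y z t h ∈ Gamma0 (N * q) := by
  refine Gamma0_mem.mpr ?_
  show (((alSq N q x y z t) 1 0 : ℤ) : ZMod (N * q)) = 0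
  rw [(ZMod.intCast_zmod_eq_zero_iff_dvd _ _)]
  refine ⟨z * (x + t), ?_⟩
  simp [alSq]

/-- **`w² = q • γ₀`** in `GL (Fin 2) ℝ`, in the shape of `New25.W_sq`. -/
theorem alWGL_sq (hq : q ≠ 0) (h : (q : ℤ) * x * t - N * y * z = 1) :
    alWGL N q x y z t hq h * alWGL N q x y z t hq h =
      scalarGL q (by exact_mod_cast hq) * mapGL ℝ (alSqSL N q x y z t h) := by
  apply Units.ext
  rw [Units.val_mul, Units.val_mul, val_alWGL, val_scalarGL, val_mapGL, ← Matrix.map_mul,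
    alW_sq, smul_mul_assoc, one_mul, map_smul_int]
  simp [alSqSL]

/-- `r_j = w [[1,j],[0,q]] / q` as an element of `SL(2,ℤ)`. -/
def alRSL (N q : ℕ) (x y z t : ℤ) (h : (q : ℤ) * x * t - N * y * z = 1) (j : ℤ) : SL(2, ℤ) :=
  ⟨alR N q x y z t j, alR_det _ _ _ _ _ _ _ h⟩

theorem alRSL_mem_Gamma0 (h : (q : ℤ) * x * t - N * y * z = 1) (j : ℤ) :
    alRSL N q x y z t h j ∈ Gamma0 N := by
  refine Gamma0_mem.mpr ?_
  show (((alR N q x y z t j) 1 0 : ℤ) : ZMod N) = 0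
  simp [alR]

/-- the lower-left entry of `r_j` is `N z`, prime to `q`: `r_j ∉ Γ0(N q)` (for `0 < N`). -/
theorem alRSL_one_zero (h : (q : ℤ) * x * t - N * y * z = 1) (j : ℤ) :
    (alRSL N q x y z t h j : Matrix (Fin 2) (Fin 2) ℤ) 1 0 = N * z := by
  simp [alRSL, alR]

/-- **`w * heckeMatrix q j = q • r_j`** in `GL (Fin 2) ℝ`, in the shape of `New25.res_cores_eq` (`h1`). -/
theorem alWGL_mul_heckeMatrix (hq : q ≠ 0) (h : (q : ℤ) * x * t - N * y * z = 1) (j : ℕ) :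
    alWGL N q x y z t hq h * ModularForm.heckeMatrix q j =
      scalarGL q (by exact_mod_cast hq) * mapGL ℝ (alRSL N q x y z t h j) := by
  apply Units.ext
  rw [Units.val_mul, Units.val_mul, val_alWGL, val_scalarGL, val_mapGL,
    ModularForm.val_heckeMatrix hq, smul_mul_assoc, one_mul]
  have e : (!![(1 : ℝ), (j : ℝ); 0, (q : ℝ)] : Matrix (Fin 2) (Fin 2) ℝ) =
      (!![(1 : ℤ), (j : ℤ); 0, (q : ℤ)] : Matrix (Fin 2) (Fin 2) ℤ).map (algebraMap ℤ ℝ) := by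
    ext i k
    fin_cases i <;> fin_cases k <;> simp
  rw [e, ← Matrix.map_mul, alW_mul_hecke, map_smul_int]
  simp [alRSL]

end AL

end Fermat.Agent.S41.New25
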