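/-
S41 leaf C11 [NEW], integer-matrix facts for the Atkin–Lehner matrix (helper25, requested by helper63).

`w = [[q x, y],[N q z, q t]]` with `q x t - N y z = 1` (so `det w = q`).
* `alW_mul_eq`      : `w * γ = γ' * w` for `γ = [[a,b],[N q c,d]]`, with `γ' = alConj …` EXPLICIT, integral,
                      lower-left entry divisible by `N q`; `alConj_det` : `det γ' = det γ` (`= 1`).
* `alW_sq`          : `w * w = q • γ₀`, `γ₀ = alSq …` integral, `det γ₀ = 1`, lower-left divisible by `N q`.
* `alW_mul_hecke`   : `w * [[1,j],[0,q]] = q • r_j`, `r_j = alR …`, `det r_j = 1`, lower-left `= N z`.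
* Gamma0 forms      : `exists_alConj_mem_Gamma0`, `alSqSL_mem_Gamma0`, `alRSL_mem_Gamma0`.
-/
import Mathlib

set_option autoImplicit false

namespace Fermat.Agent.S41.New25

open Matrix
open scoped MatrixGroups

/-- the Atkin–Lehner matrix `[[q x, y],[N q z, q t]]`. -/
def alW (N q x y z t : ℤ) : Matrix (Fin 2) (Fin 2) ℤ := !![q * x, y; N * q * z, q * t]

/-- the conjugate `w γ w⁻¹` of `γ = [[a,b],[N q c,d]]`, explicitly. -/
def alConj (N q x y z t a b c d : ℤ) : Matrix (Fin 2) (Fin 2) ℤ :=
  !![(q * x * a + y * (N * q * c)) * t - (q * x * b + y * d) * (N * z),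
     -x * a * y + q * x ^ 2 * b + x * y * d - N * y ^ 2 * c;
     N * q * (z * a * t + t ^ 2 * q * c - N * z ^ 2 * b - z * t * d),
     -(N * z * a + t * (N * q * c)) * y + (N * z * b + t * d) * (q * x)]

/-- `w² / q`. -/
def alSq (N q x y z t : ℤ) : Matrix (Fin 2) (Fin 2) ℤ :=
  !![q * x ^ 2 + N * y * z, y * (x + t); N * q * (z * (x + t)), N * y * z + q * t ^ 2]

/-- `r_j = w * [[1,j],[0,q]] / q`. -/
def alR (N q x y z t j : ℤ) : Matrix (Fin 2) (Fin 2) ℤ :=
  !![x, x * j + y; N * z, N * z * j + q * t]

theorem alW_det (N q x y z t : ℤ) (h : q * x * t - N * y * z = 1) : (alW N q x y z t).det = q := by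
  rw [alW, Matrix.det_fin_two_of]
  linear_combination q * h

theorem alW_mul_eq (N q x y z t a b c d : ℤ) (h : q * x * t - N * y * z = 1) :
    alW N q x y z t * !![a, b; N * q * c, d] = alConj N q x y z t a b c d * alW N q x y z t := by
  rw [alW, alConj, Matrix.mul_fin_two, Matrix.mul_fin_two]
  ext i j
  fin_cases i <;> fin_cases j
  · simp only [Fin.zero_eta, Fin.isValue, of_apply, cons_val', cons_val_zero, cons_val_fin_one]
    linear_combination (-(q * x * a + y * (N * q * c))) * h
  · simp only [Fin.zero_eta, Fin.mk_one, Fin.isValue, of_apply, cons_val', cons_val_one,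
      cons_val_fin_one, cons_val_zero]
    linear_combination (-(q * x * b + y * d)) * h
  · simp only [Fin.mk_one, Fin.zero_eta, Fin.isValue, of_apply, cons_val', cons_val_zero,
      cons_val_fin_one, cons_val_one]
    linear_combination (-(N * q * z * a + q * t * (N * q * c))) * h
  · simp only [Fin.mk_one, Fin.isValue, of_apply, cons_val', cons_val_one, cons_val_fin_one]
    linear_combination (-(N * q * z * b + q * t * d)) * h

theorem alConj_det (N q x y z t a b c d : ℤ) (h : q * x * t - N * y * z = 1) :
    (alConj N q x y z t a b c d).det = a * d - b * (N * q * c) := by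
  rw [alConj, Matrix.det_fin_two_of]
  linear_combination (a * d - b * (N * q * c)) * (q * x * t - N * y * z + 1) * h

theorem alConj_one_zero (N q x y z t a b c d : ℤ) :
    (alConj N q x y z t a b c d) 1 0 =
      N * q * (z * a * t + t ^ 2 * q * c - N * z ^ 2 * b - z * t * d) := by
  simp [alConj]

theorem alW_sq (N q x y z t : ℤ) :
    alW N q x y z t * alW N q x y z t = q • alSq N q x y z t := by
  rw [alW, alSq, Matrix.mul_fin_two, Matrix.smul_of, Matrix.smul_cons, Matrix.smul_cons]
  ext i j
  fin_cases i <;> fin_cases j <;> simp <;> ring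

theorem alSq_det (N q x y z t : ℤ) (h : q * x * t - N * y * z = 1) : (alSq N q x y z t).det = 1 := by
  rw [alSq, Matrix.det_fin_two_of]
  linear_combination (q * x * t - N * y * z + 1) * h

theorem alW_mul_hecke (N q x y z t j : ℤ) :
    alW N q x y z t * !![1, j; 0, q] = q • alR N q x y z t j := by
  rw [alW, alR, Matrix.mul_fin_two, Matrix.smul_of, Matrix.smul_cons, Matrix.smul_cons]
  ext i k
  fin_cases i <;> fin_cases k <;> simp <;> ring

theorem alR_det (N q x y z t j : ℤ) (h : q * x * t - N * y * z = 1) : (alR N q x y z t j).det = 1 := by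
  rw [alR, Matrix.det_fin_two_of]
  linear_combination h

end Fermat.Agent.S41.New25
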