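/-
S41 leaf C11 [NEW], abstract part (helper25; owner of C11: helper63; API: helper15 `Hecke15.Abstract`).

On `Hom(Γ', A)` (`Γ' = Γ0(N q)`, `Γ = Γ0(N)` in the application), with
* `U`   = `heckeHom` of the family `αU : κ → G`                 (from `Γ'` to `Γ'`),
* `W`   = `heckeHom` of the one-element family `w`              (from `Γ'` to `Γ'`),
* `cores` = `heckeHom` of a family `ρ : ι → G`                  (from `Γ'` to `Γ`),
* `res` = `heckeHom` of the one-element family `1`              (from `Γ` to `Γ'`),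
and the matrix facts `ρ (π (inl ())) ∈ e'(Γ')`, `z * ρ (π (inr j)) = e'(d j) * (w * αU j)` (`z` central),
`w * w = z' * e'(γ₀)` (`z'` central):

* `res_cores_eq`   : `res (cores φ) = φ + U (W φ)`;
* `W_sq`           : `W (W φ) = φ`;
* `new_U_sq`       : on `ker cores ∩ ker (cores ∘ W)`:  `U φ = - W φ`, `U (U φ) = φ`, and the kernel is
                     stable under `U` (and `W`).
Central scalars are handled by `heckeHom_central_mul`.
-/
import Mathlib
import Fermat.Agent.S41.Hecke15.Abstract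

set_option autoImplicit false
set_option linter.unusedSectionVars false

namespace Fermat.Agent.S41.New25

open Fermat.Agent.S41.Hecke15

section Central

variable {G Γ Γ' : Type*} [Group G] [Group Γ] [Group Γ']
variable {A : Type*} [AddCommGroup A]
variable {ι : Type*} [Fintype ι]

/-- multiplying a stable family by a central element keeps it stable. -/
theorem isStable_central_mul {e : Γ →* G} {e' : Γ' →* G} {α : ι → G} (hα : IsStable e e' α)
    (z : G) (hz : ∀ g : G, z * g = g * z) : IsStable e e' (fun i => z * α i) := by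
  intro γ'
  obtain ⟨σ, c, hc⟩ := hα γ'
  refine ⟨σ, c, fun i => ?_⟩
  rw [mul_assoc, hc i, ← mul_assoc, ← mul_assoc, hz]

/-- **(Z)** multiplying a family by a central element does not change the operator. -/
theorem heckeHom_central_mul (e : Γ →* G) (he : Function.Injective e) (e' : Γ' →* G)
    (α : ι → G) (hα : IsStable e e' α) (z : G) (hz : ∀ g : G, z * g = g * z)
    (hα' : IsStable e e' (fun i => z * α i)) :
    (heckeHom e he e' (fun i => z * α i) hα' : (Additive Γ →+ A) →+ _) = heckeHom e he e' α hα := by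
  refine AddMonoidHom.ext fun φ => AddMonoidHom.ext fun γ' => ?_
  obtain ⟨σ, c, hc⟩ := hα γ'.toMul
  have h' : ∀ i, (fun i => z * α i) i * e' γ'.toMul = e (c i) * (fun i => z * α i) (σ i) := by
    intro i
    show z * α i * e' γ'.toMul = e (c i) * (z * α (σ i))
    rw [mul_assoc, hc i, ← mul_assoc, ← mul_assoc, hz]
  change heckeHom e he e' (fun i => z * α i) hα' φ (Additive.ofMul γ'.toMul) =
    heckeHom e he e' α hα φ (Additive.ofMul γ'.toMul)
  rw [heckeHom_apply_of_reps e he e' _ hα' φ γ'.toMul σ c h',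
    heckeHom_apply_of_reps e he e' α hα φ γ'.toMul σ c hc]

/-- the one-element family `1` from `Γ` to itself is stable. -/
theorem isStable_one (e : Γ →* G) : IsStable e e (fun _ : Unit => (1 : G)) :=
  isStable_unit e e 1 fun γ => ⟨γ, by rw [one_mul, mul_one]⟩

/-- the operator of the one-element family `1` is the identity. -/
theorem heckeHom_one_apply (e : Γ →* G) (he : Function.Injective e)
    (h1 : IsStable e e (fun _ : Unit => (1 : G))) (φ : Additive Γ →+ A) :
    heckeHom e he e (fun _ : Unit => (1 : G)) h1 φ = φ := by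
  rw [heckeHom_of_mem_range e he _ h1 (fun _ => 1) (fun _ => (map_one e).symm) φ]
  simp

end Central

section New

variable {G Γ Γ' : Type*} [Group G] [Group Γ] [Group Γ']
variable {A : Type*} [AddCommGroup A]
variable {ι κ : Type*} [Fintype ι] [Fintype κ]
variable (e : Γ →* G) (he : Function.Injective e) (e' : Γ' →* G) (he' : Function.Injective e')
variable (αU : κ → G) (hU : IsStable e' e' αU)
variable (w : G) (hW : IsStable e' e' (fun _ : Unit => w))
variable (ρ : ι → G) (hC : IsStable e' e ρ)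
variable (hR : IsStable e e' (fun _ : Unit => (1 : G)))

/-- the family `j ↦ w * αU j` is stable. -/
theorem isStable_w_mul (hU : IsStable e' e' αU) (hW : IsStable e' e' (fun _ : Unit => w)) :
    IsStable e' e' (fun j => w * αU j) :=
  (hW.mul hU).congr (Equiv.punitProd κ) (fun _ => 1) fun p => by
    rw [map_one, one_mul]
    rfl

/-- `U ∘ W` is the operator of the family `j ↦ w * αU j`. -/
theorem U_W_eq (hWU : IsStable e' e' (fun j => w * αU j)) (φ : Additive Γ' →+ A) :
    heckeHom e' he' e' αU hU (heckeHom e' he' e' (fun _ : Unit => w) hW φ) =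
      heckeHom e' he' e' (fun j => w * αU j) hWU φ := by
  rw [heckeHom_comp e' he' e' he' e' (fun _ : Unit => w) αU hW hU φ]
  have := heckeHom_congr (A := A) e' he' e' (fun p : Unit × κ => w * αU p.2) (fun j => w * αU j)
    (hW.mul hU) hWU (Equiv.punitProd κ) (fun _ => 1) fun p => by
      rw [map_one, one_mul]
      rfl
  rw [this]

/-- **(A)** `res ∘ cores = 1 + U ∘ W`. -/
theorem res_cores_eq
    (π : Unit ⊕ κ ≃ ι) (d : Unit ⊕ κ → Γ') (z : G) (hz : ∀ g : G, z * g = g * z)
    (h0 : ρ (π (Sum.inl ())) = e' (d (Sum.inl ())))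
    (h1 : ∀ j, z * ρ (π (Sum.inr j)) = e' (d (Sum.inr j)) * (w * αU j))
    (φ : Additive Γ' →+ A) :
    heckeHom e he e' (fun _ : Unit => (1 : G)) hR (heckeHom e' he' e ρ hC φ) =
      φ + heckeHom e' he' e' αU hU (heckeHom e' he' e' (fun _ : Unit => w) hW φ) := by
  have hzinv : ∀ g : G, z⁻¹ * g = g * z⁻¹ := fun g => by
    have := hz g
    calc z⁻¹ * g = z⁻¹ * (g * z) * z⁻¹ := by group
      _ = z⁻¹ * (z * g) * z⁻¹ := by rw [this]
      _ = g * z⁻¹ := by group
  have hWU : IsStable e' e' (fun j => w * αU j) := isStable_w_mul e' αU w hU hW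
  have hWUz : IsStable e' e' (fun j => z⁻¹ * (w * αU j)) := isStable_central_mul hWU z⁻¹ hzinv
  have h1s : IsStable e' e' (fun _ : Unit => (1 : G)) := isStable_one e'
  rw [heckeHom_comp e' he' e he e' ρ (fun _ : Unit => (1 : G)) hC hR φ, U_W_eq e' he' αU hU w hW hWU φ]
  have hcongr := heckeHom_congr (A := A) e' he' e'
    (Sum.elim (fun _ : Unit => (1 : G)) (fun j => z⁻¹ * (w * αU j)))
    (fun p : ι × Unit => ρ p.1 * 1) (h1s.sumElim hWUz) (hC.mul hR)
    (π.trans (Equiv.prodPUnit ι).symm) d (by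
      rintro (u | j)
      · show ρ (π (Sum.inl u)) * 1 = e' (d (Sum.inl u)) * 1
        rw [h0]
      · show ρ (π (Sum.inr j)) * 1 = e' (d (Sum.inr j)) * (z⁻¹ * (w * αU j))
        have := h1 j
        rw [mul_one, ← mul_assoc, ← hzinv, mul_assoc, ← this]
        group)
  rw [← hcongr, heckeHom_sumElim e' he' e' _ _ h1s hWUz, AddMonoidHom.add_apply,
    heckeHom_one_apply e' he' h1s φ, heckeHom_central_mul e' he' e' _ hWU z⁻¹ hzinv hWUz]

/-- **(B)** `W ∘ W = 1` when `w * w` is a central multiple of an element of `e'(Γ')`. -/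
theorem W_sq (z' : G) (hz' : ∀ g : G, z' * g = g * z') (γ₀ : Γ') (hw : w * w = z' * e' γ₀)
    (φ : Additive Γ' →+ A) :
    heckeHom e' he' e' (fun _ : Unit => w) hW (heckeHom e' he' e' (fun _ : Unit => w) hW φ) = φ := by
  rw [heckeHom_comp e' he' e' he' e' (fun _ : Unit => w) (fun _ : Unit => w) hW hW φ]
  have hγ : IsStable e' e' (fun _ : Unit × Unit => e' γ₀) := by
    intro γ'
    refine ⟨Equiv.refl _, fun _ => γ₀ * γ' * γ₀⁻¹, fun _ => ?_⟩
    rw [Equiv.refl_apply, ← map_mul, ← map_mul]
    congr 1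
    group
  have hγz : IsStable e' e' (fun p : Unit × Unit => z' * (fun _ : Unit × Unit => e' γ₀) p) :=
    isStable_central_mul hγ z' hz'
  have h1 : (heckeHom e' he' e' (fun p : Unit × Unit => (fun _ : Unit => w) p.1 * (fun _ : Unit => w) p.2)
      (hW.mul hW) : (Additive Γ' →+ A) →+ _) =
      heckeHom e' he' e' (fun p : Unit × Unit => z' * (fun _ : Unit × Unit => e' γ₀) p) hγz := by
    congr 1
    funext p
    exact hw
  rw [h1, heckeHom_central_mul e' he' e' _ hγ z' hz' hγz,
    heckeHom_of_mem_range e' he' _ hγ (fun _ => γ₀) (fun _ => rfl) φ]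
  simp

/-- **(C)** on `ker cores ∩ ker (cores ∘ W)` one has `U = - W`, `U² = 1`, and this kernel is stable
under `U`.  Stated for abstract additive maps satisfying (A) and (B). -/
theorem new_of_identities {X Y : Type*} [AddCommGroup X] [AddCommGroup Y]
    (res : Y →+ X) (cores : X →+ Y) (U W : X →+ X)
    (hA : ∀ φ, res (cores φ) = φ + U (W φ)) (hB : ∀ φ, W (W φ) = φ)
    (φ : X) (h1 : cores φ = 0) (h2 : cores (W φ) = 0) :
    U φ = - W φ ∧ U (U φ) = φ ∧ cores (U φ) = 0 ∧ cores (W (U φ)) = 0 := by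
  have e1 : U (W φ) = - φ := by
    have := hA φ
    rw [h1, map_zero] at this
    exact (neg_eq_of_add_eq_zero_right this.symm).symm
  have e2 : U φ = - W φ := by
    have := hA (W φ)
    rw [h2, map_zero, hB] at this
    exact (neg_eq_of_add_eq_zero_right this.symm).symm
  refine ⟨e2, ?_, ?_, ?_⟩
  · rw [e2, map_neg, e1, neg_neg]
  · rw [e2, map_neg, h2, neg_zero]
  · rw [e2, map_neg, hB, map_neg, h1, neg_zero]

include he hR in
/-- **(C)** in the `heckeHom` vocabulary. -/
theorem new_U_sq
    (π : Unit ⊕ κ ≃ ι) (d : Unit ⊕ κ → Γ') (z : G) (hz : ∀ g : G, z * g = g * z)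
    (h0 : ρ (π (Sum.inl ())) = e' (d (Sum.inl ())))
    (h1 : ∀ j, z * ρ (π (Sum.inr j)) = e' (d (Sum.inr j)) * (w * αU j))
    (z' : G) (hz' : ∀ g : G, z' * g = g * z') (γ₀ : Γ') (hw : w * w = z' * e' γ₀)
    (φ : Additive Γ' →+ A)
    (hφ1 : heckeHom e' he' e ρ hC φ = 0)
    (hφ2 : heckeHom e' he' e ρ hC (heckeHom e' he' e' (fun _ : Unit => w) hW φ) = 0) :
    heckeHom e' he' e' αU hU φ = - heckeHom e' he' e' (fun _ : Unit => w) hW φ ∧
    heckeHom e' he' e' αU hU (heckeHom e' he' e' αU hU φ) = φ ∧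
    heckeHom e' he' e ρ hC (heckeHom e' he' e' αU hU φ) = 0 ∧
    heckeHom e' he' e ρ hC
      (heckeHom e' he' e' (fun _ : Unit => w) hW (heckeHom e' he' e' αU hU φ)) = 0 :=
  new_of_identities (heckeHom e he e' (fun _ : Unit => (1 : G)) hR) (heckeHom e' he' e ρ hC)
    (heckeHom e' he' e' αU hU) (heckeHom e' he' e' (fun _ : Unit => w) hW)
    (res_cores_eq e he e' he' αU hU w hW ρ hC hR π d z hz h0 h1)
    (W_sq e' he' w hW z' hz' γ₀ hw) φ hφ1 hφ2

end New

end Fermat.Agent.S41.New25
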